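import Fermat.Agent.RIB.Wrap.Lvl48
import Fermat.Agent.RIB.Main.Defs
import Fermat.Agent.S58.Level

/-!
# ML / Top / Start : the start of the chain of S59

* `isResiduallyModularOfLevel_of_dvd` : residual modularity passes from the level `M` to every multiple `R ≠ 0` of `M`.
* `exists_ne_zero_mem_thetaPart_of_dvd`, `WS_ne_bot_of_dvd` : `W.IsResiduallyModularOfLevel p M₀`, `M₀ ∣ L` gives a non zero class
  killed by `p` in `thetaPart L p S (apW W)`, for EVERY `S ⊇ badS W p L`  (no degeneracy map: the level is raised on the forms).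
* `exists_odd_part` : `M₀ ≠ 0`, `8 ∤ M₀` : `M₀ ∣ M₁ * 4`, `M₁ ∣ M₀`, `M₁` odd.
* `start59` : the hypotheses of S59 give an ODD cube-free `M₁`, `p² ∤ M₁`, `M₁ ∣ M₀`, with `WS (M₁ * 4) p S (apW W) ≠ ⊥` for every
  `S ⊇ badS W p (M₁ * 4)`   (= the input of `lower`).
-/

set_option autoImplicit false

noncomputable section

open AlgebraicCurve ModularCurve CongruenceSubgroup

namespace Fermat.Agent.ML

open Fermat.Agent.RIB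

/-- residual modularity: raising the level. -/
theorem isResiduallyModularOfLevel_of_dvd {W : WeierstrassCurve ℤ} {p M R : ℕ} [NeZero M]
    [NeZero R] (h : M ∣ R) (hM : W.IsResiduallyModularOfLevel p M) :
    W.IsResiduallyModularOfLevel p R := by
  obtain ⟨f, 𝔪, hf, hmax, hpm, hcong⟩ := hM
  obtain ⟨g, hg, hga⟩ := S58.exists_eigenform_of_dvd h hf
  refine ⟨g, 𝔪, hg, hmax, hpm, fun ℓ hℓ hgood hℓR hℓp => ?_⟩
  obtain ⟨a, ha, ha'⟩ := hcong ℓ hℓ hgood (fun hd => hℓR (hd.trans h)) hℓp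
  exact ⟨a, by rw [ha, hga ℓ hℓ hℓR], ha'⟩

/-- residual modularity of level `L` gives a non zero eigenclass killed by `p` at the level `L` itself. -/
theorem exists_ne_zero_mem_thetaPart_self (W : WeierstrassCurve ℤ) (hΔ : W.Δ ≠ 0) {p L : ℕ}
    [NeZero L] (hp : p.Prime) (hmod : W.IsResiduallyModularOfLevel p L) (S : Set ℕ)
    (hS : (↑(S40.badS W p L) : Set ℕ) ⊆ S) :
    ∃ x ∈ thetaPart L p S (S40.apW W), p • x = 0 ∧ x ≠ 0 := by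
  obtain ⟨f, 𝔪, hf, hmax, hpm, hcong⟩ := hmod
  have hgood : ∀ ℓ : ℕ, ℓ.Prime → ℓ ∉ (↑(S40.badS W p L) : Set ℕ) →
      W.IsGoodPrimeFor ℓ ∧ ¬ ℓ ∣ L ∧ ℓ ≠ p := fun ℓ hℓ h =>
    (S40.notMem_badS_iff hΔ (NeZero.ne L) hℓ).1 fun h' => h (Finset.mem_coe.2 h')
  obtain ⟨y, hy, hy0⟩ := S40.exists_ne_zero_mem_eigA (S := (↑(S40.badS W p L) : Set ℕ))
    (a := S40.apW W) hp f 𝔪 hf hmax hpm
    (fun ℓ hℓ hℓS => (hgood ℓ hℓ hℓS).2.1)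
    (fun ℓ hℓ hℓS => hcong ℓ hℓ (hgood ℓ hℓ hℓS).1 (hgood ℓ hℓ hℓS).2.1 (hgood ℓ hℓ hℓS).2.2)
  exact ⟨y, eigA_le_thetaPart _ _ _ _ (eigA_mono _ _ hS _ hy), hy.1, hy0⟩

/-- **[START]** -/
theorem exists_ne_zero_mem_thetaPart_of_dvd (W : WeierstrassCurve ℤ) (hΔ : W.Δ ≠ 0) {p M₀ L : ℕ}
    [NeZero M₀] [NeZero L] (hp : p.Prime) (hd : M₀ ∣ L)
    (hmod : W.IsResiduallyModularOfLevel p M₀) (S : Set ℕ)
    (hS : (↑(S40.badS W p L) : Set ℕ) ⊆ S) :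
    ∃ x ∈ thetaPart L p S (S40.apW W), p • x = 0 ∧ x ≠ 0 :=
  exists_ne_zero_mem_thetaPart_self W hΔ hp (isResiduallyModularOfLevel_of_dvd hd hmod) S hS

/-- **[START]**, `WS` form. -/
theorem WS_ne_bot_of_dvd (W : WeierstrassCurve ℤ) (hΔ : W.Δ ≠ 0) {p M₀ L : ℕ}
    [NeZero M₀] [NeZero L] (hp : p.Prime) (hd : M₀ ∣ L)
    (hmod : W.IsResiduallyModularOfLevel p M₀) (S : Set ℕ)
    (hS : (↑(S40.badS W p L) : Set ℕ) ⊆ S) : WS L p S (S40.apW W) ≠ ⊥ := by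
  obtain ⟨x, hx, hpx, hx0⟩ := exists_ne_zero_mem_thetaPart_of_dvd W hΔ hp hd hmod S hS
  intro hbot
  have hmem : x ∈ WS L p S (S40.apW W) := ⟨hx, hpx⟩
  rw [hbot, AddSubgroup.mem_bot] at hmem
  exact hx0 hmem

/-- the odd part of a number which is not divisible by `8`. -/
theorem exists_odd_part {M₀ : ℕ} (h0 : M₀ ≠ 0) (h8 : ¬ 2 ^ 3 ∣ M₀) :
    ∃ M₁ : ℕ, Odd M₁ ∧ M₁ ∣ M₀ ∧ M₀ ∣ M₁ * 4 := by
  obtain ⟨e, M₁, hM₁, rfl⟩ := Nat.exists_eq_two_pow_mul_odd h0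
  refine ⟨M₁, hM₁, Dvd.intro_left _ rfl, ?_⟩
  have he : e ≤ 2 := by
    by_contra hlt
    exact h8 (Dvd.dvd.mul_right (pow_dvd_pow 2 (by omega)) M₁)
  rw [mul_comm M₁ 4]
  exact Nat.mul_dvd_mul_right (show 2 ^ e ∣ 2 ^ 2 from pow_dvd_pow 2 he) M₁

/-- **[START59]** the input of `lower` from the hypotheses of S59. -/
theorem start59 {p : ℕ} (hp : p.Prime) (hp2 : p ≠ 2) (W : WeierstrassCurve ℤ) (hΔ : W.Δ ≠ 0)
    (M₀ : ℕ) [NeZero M₀] (hres₀ : W.IsResiduallyModularOfLevel p M₀) (hM₀ : ¬ p ^ 2 ∣ M₀)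
    (hM₀3 : ∀ q : ℕ, q.Prime → q ≠ p → ¬ q ^ 3 ∣ M₀) :
    ∃ (M₁ : ℕ) (_ : NeZero (M₁ * 4)), Odd M₁ ∧ M₁ ∣ M₀ ∧ ¬ p ^ 2 ∣ M₁ ∧
      (∀ q : ℕ, q.Prime → ¬ q ^ 3 ∣ M₁) ∧
      ∀ S : Set ℕ, (↑(S40.badS W p (M₁ * 4)) : Set ℕ) ⊆ S → WS (M₁ * 4) p S (S40.apW W) ≠ ⊥ := by
  obtain ⟨M₁, hodd, hd1, hd2⟩ := exists_odd_part (NeZero.ne M₀)
    (hM₀3 2 Nat.prime_two (Ne.symm hp2))
  have hne : M₁ * 4 ≠ 0 := mul_ne_zero
    (fun h0 => NeZero.ne M₀ (Nat.eq_zero_of_zero_dvd (h0 ▸ hd1))) (by norm_num)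
  haveI : NeZero (M₁ * 4) := ⟨hne⟩
  refine ⟨M₁, ⟨hne⟩, hodd, hd1, fun h => hM₀ (h.trans hd1), fun q hq h => ?_, fun S hS =>
    WS_ne_bot_of_dvd W hΔ hp hd2 hres₀ S hS⟩
  by_cases hqp : q = p
  · subst hqp
    exact hM₀ ((pow_dvd_pow q (by norm_num)).trans (h.trans hd1))
  · exact hM₀3 q hq hqp (h.trans hd1)

end Fermat.Agent.ML
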