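import Fermat.Agent.ML.Top.Mod
import Fermat.Agent.SS.Top35.OldKill

/-!
# ML / Top / Card : convenient forms of `ModStmt`

* `modStmt_of_exponent` : eigenclasses of `p`-power order, not killed by `p^k`.
* `modStmt_of_card` : groups of eigenclasses of `p`-power order of unbounded cardinality.
* `ModStmt.mono` : the exceptional set may grow.
-/

set_option autoImplicit false

noncomputable section

open AlgebraicCurve ModularCurve CongruenceSubgroup ModularFormClass

namespace Fermat.Agent.ML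

/-- the exceptional set may grow. -/
theorem ModStmt.mono {W : WeierstrassCurve ℤ} {p L : ℕ} [NeZero L] {T T' : Finset ℕ}
    (hTT : T ⊆ T') (h : ModStmt W p L T) : ModStmt W p L T' := fun k B => by
  obtain ⟨x, h1, h2, h3⟩ := h k B
  exact ⟨x, h1, h2, fun r hrB hrT => h3 r hrB fun hr => hrT (hTT hr)⟩

/-- **(MOD), exponent form.** -/
theorem modStmt_of_exponent {W : WeierstrassCurve ℤ} {p L : ℕ} [NeZero L] {T : Finset ℕ}
    (h : ∀ (k : ℕ) (B : Finset ℕ), ∃ y : JZero L, (∃ a : ℕ, p ^ a • y = 0) ∧ p ^ k • y ≠ 0 ∧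
      ∀ r : Nat.Primes, (r : ℕ) ∈ B → (r : ℕ) ∉ T →
        heckeOperatorBar L r y = W.apOfModel (r : ℕ) • y) : ModStmt W p L T := fun k B => by
  classical
  obtain ⟨y, ha, hk, he⟩ := h k B
  have hfa : p ^ (Nat.find ha) • y = 0 := Nat.find_spec ha
  have hlt : k < Nat.find ha := by
    by_contra hle
    rw [not_lt] at hle
    apply hk
    obtain ⟨d, hd⟩ := Nat.exists_eq_add_of_le hle
    rw [hd, pow_add, mul_comm, mul_smul, hfa, smul_zero]
  obtain ⟨d, hd⟩ := Nat.exists_eq_add_of_lt hlt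
  refine ⟨p ^ d • y, ?_, ?_, fun r hrB hrT => ?_⟩
  · rw [← mul_smul, ← pow_add, show k + 1 + d = Nat.find ha by omega]
    exact hfa
  · rw [← mul_smul, ← pow_add]
    exact Nat.find_min ha (by omega)
  · rw [map_nsmul, he r hrB hrT, smul_comm]

/-- **(MOD), cardinality form.** -/
theorem modStmt_of_card {W : WeierstrassCurve ℤ} {p L : ℕ} [NeZero L] (hp : p.Prime)
    {T : Finset ℕ}
    (h : ∀ (n : ℕ) (B : Finset ℕ), ∃ Y : AddSubgroup (JZero L), n < Nat.card Y ∧
      ∀ y ∈ Y, (∃ a : ℕ, p ^ a • y = 0) ∧ ∀ r : Nat.Primes, (r : ℕ) ∈ B → (r : ℕ) ∉ T →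
        heckeOperatorBar L r y = W.apOfModel (r : ℕ) • y) : ModStmt W p L T := by
  haveI : Fact p.Prime := ⟨hp⟩
  refine modStmt_of_exponent fun k B => ?_
  obtain ⟨Y, hn, hY⟩ := h (Nat.card {x : JZero L // p ^ k • x = 0}) B
  by_contra hcon
  have hall : ∀ y ∈ Y, p ^ k • y = 0 := fun y hy => by
    by_contra hne
    exact hcon ⟨y, (hY y hy).1, hne, (hY y hy).2⟩
  have hpos : 0 < Nat.card {x : JZero L // p ^ k • x = 0} := by
    rw [SS.card_torsion_JZero]
    exact pow_pos hp.pos _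
  haveI : Finite {x : JZero L // p ^ k • x = 0} := (Nat.card_pos_iff.1 hpos).2
  have hle : Nat.card Y ≤ Nat.card {x : JZero L // p ^ k • x = 0} :=
    Nat.card_le_card_of_injective
      (fun y : Y => (⟨y.1, hall y.1 y.2⟩ : {x : JZero L // p ^ k • x = 0})) fun a b hab =>
      Subtype.ext (Subtype.mk.inj hab)
  omega

end Fermat.Agent.ML
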