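import Fermat.Agent.ML.Top.S59Cand
import Fermat.Agent.ML.Main.CellAsm
import Fermat.Agent.ML.Main.StepSplit
import Fermat.Agent.ML.Main.ESign
import Fermat.Agent.ML.At2.KeyEq.E2Fin
import Fermat.Agent.ML.Low.SqMain
import Fermat.Agent.ML.Low.GenAll

/-!
# ML / Top / Leaves : the statement of S59 from the LEAF contracts

* `lowerStmt : LowerStmt`, `type2Stmt : Type2Stmt` : LOWER and AT-2 are theorems.
* `result_of_cells` has VERBATIM the statement of the template of S59 after the six cell contracts which are still to be proved: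
  `BaseCellStmt`, `StepTwoStmt`, `StepSoftStmt`, `StepHardStmt`, `StepPStmt`, `FinCellStmt`.
-/

set_option autoImplicit false
open scoped WeierstrassCurve.Affine
open WeierstrassCurve

namespace Fermat.Agent.ML

/-- **LOWER** is a theorem. -/
theorem lowerStmt : LowerStmt :=
  lowerStmt_of (fun _ _ _ _ _ _ C => Low.sq C) genBAll

/-- **AT-2** is a theorem. -/
theorem type2Stmt : Type2Stmt :=
  At2.type2Stmt_of At2.lower2Stmt_fin

/-- the statement of S59 from the six cell contracts. -/
theorem result_of_cells (hBase : BaseCellStmt) (h2 : StepTwoStmt) (hS : StepSoftStmt)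
    (hH : StepHardStmt) (hP : StepPStmt) (hF : FinCellStmt)
    (p : ℕ) (hp : p = 3 ∨ p = 5)
    (W : WeierstrassCurve ℤ) (hΔ : W.Δ ≠ 0) (hW : W.IsSemistableModel) (hirr : W.ModRepIsIrreducible p)
    (M₀ : ℕ) [NeZero M₀] (hres₀ : W.IsResiduallyModularOfLevel p M₀)
    (hM₀ : ¬ p ^ 2 ∣ M₀)
    (hM₀3 : ∀ q : ℕ, q.Prime → q ≠ p → ¬ q ^ 3 ∣ M₀) :
    Mlc1IsModularModelOfExactConductorLevel W :=
  result_of' lowerStmt type2Stmt
    (lift_of_cells eSignStmt hBase (stepCell_of h2 hS hH hP) hF)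
    p hp W hΔ hW hirr M₀ hres₀ hM₀ hM₀3

end Fermat.Agent.ML
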