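import Fermat.Agent.ML.Top.Steps
import Fermat.Agent.ML.Lift.Soft.Main
import Fermat.Agent.ML.Hard.Asm
import Fermat.Agent.ML.AtP.StepP.Main

/-!
# ML / Top / Mids : the statement of S59 from `StepTwoStmt` and the THREE middle blocks

`result_of_mids` has VERBATIM the statement of the template of S59 after
`StepTwoStmt`, `Lift.SoftMidStmt`, `Hard.HardMidStmt`, `StepP.MidPStmt`.
-/

set_option autoImplicit false
open scoped WeierstrassCurve.Affine
open WeierstrassCurve

namespace Fermat.Agent.ML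

/-- the statement of S59 from `StepTwoStmt` and the three middle blocks. -/
theorem result_of_mids (h2 : StepTwoStmt) (hS : Lift.SoftMidStmt) (hH : Hard.HardMidStmt)
    (hP : StepP.MidPStmt)
    (p : ℕ) (hp : p = 3 ∨ p = 5)
    (W : WeierstrassCurve ℤ) (hΔ : W.Δ ≠ 0) (hW : W.IsSemistableModel) (hirr : W.ModRepIsIrreducible p)
    (M₀ : ℕ) [NeZero M₀] (hres₀ : W.IsResiduallyModularOfLevel p M₀)
    (hM₀ : ¬ p ^ 2 ∣ M₀)
    (hM₀3 : ∀ q : ℕ, q.Prime → q ≠ p → ¬ q ^ 3 ∣ M₀) :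
    Mlc1IsModularModelOfExactConductorLevel W :=
  result_of_steps h2 (Lift.stepSoftStmt_of_mid lowerStmt hS) (Hard.stepHard_of lowerStmt hH)
    (StepP.stepP_of_mid hP) p hp W hΔ hW hirr M₀ hres₀ hM₀ hM₀3

end Fermat.Agent.ML
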