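import Fermat.Agent.S58
import Fermat.Agent.S58.Coeff
import Fermat.Agent.S40.Kill.Eigen
import Fermat.Agent.S40.Defs
import Fermat.Agent.SS.Top35.OldS
import Fermat.Prelude.Def_WeierstrassCurve_Mlc1RowStatement

/-!
# ML / Top / Mod : from eigenclasses of exact order `p^(k+1)` in `J₀(L)` to the conclusion of S59

* `ModStmt W p L T` : for every `k` and every finite set `B` of test primes there is `x ∈ J₀(L)` of exact order `p^(k+1)` with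
  `T_r x = a_r(W) x` for the primes `r ∈ B`, `r ∉ T`.
* `exists_eigenform_of_modStmt` : then `r ↦ a_r(W)` is the system of eigenvalues of a normalised eigenform of level `L`.
* `top59` : the conclusion of S59.
* `modStmt_of_card` : the cardinality form of `ModStmt`.
-/

set_option autoImplicit false

noncomputable section

open AlgebraicCurve ModularCurve CongruenceSubgroup ModularFormClass

namespace Fermat.Agent.ML

open Fermat.Agent.S40 (cutS cutS_of_good cutS_of_bad)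
open Fermat.Agent.S40.Kill (TJ TJ_of_good TJ_of_bad exists_polyJ poly_kills_torsion)
open Fermat.Agent.SS Fermat.Agent.GAL Fermat.Agent.GAL.PC

/-- **(MOD)** : eigenclasses of exact order `p^(k+1)`. -/
def ModStmt (W : WeierstrassCurve ℤ) (p L : ℕ) [NeZero L] (T : Finset ℕ) : Prop :=
  ∀ (k : ℕ) (B : Finset ℕ), ∃ x : JZero L, p ^ (k + 1) • x = 0 ∧ p ^ k • x ≠ 0 ∧
    ∀ r : Nat.Primes, (r : ℕ) ∈ B → (r : ℕ) ∉ T →
      heckeOperatorBar L r x = W.apOfModel (r : ℕ) • x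

/-- a polynomial in commuting operators acts on a vector, which is an eigenvector of the variables of the polynomial,
through the value of the polynomial at the eigenvalues. -/
theorem poly_eigen_supported {J : Type*} [AddCommGroup J]
    (f : MvPolynomial ℕ ℤ →+* Module.End ℤ J) (c : ℕ → ℤ) (B : Set ℕ) (y : J)
    (hy : ∀ ℓ ∈ B, f (MvPolynomial.X ℓ) y = c ℓ • y) (t : MvPolynomial ℕ ℤ)
    (ht : t ∈ MvPolynomial.supported ℤ B) : f t y = MvPolynomial.aeval c t • y := by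
  rw [MvPolynomial.supported] at ht
  induction ht using Algebra.adjoin_induction with
  | mem x hx =>
    obtain ⟨ℓ, hℓ, rfl⟩ := hx
    rw [hy ℓ hℓ, MvPolynomial.aeval_X]
  | algebraMap a =>
    rw [MvPolynomial.algebraMap_eq, eq_intCast (MvPolynomial.C : ℤ →+* MvPolynomial ℕ ℤ) a,
      map_intCast, map_intCast, Module.End.intCast_apply]
    rfl
  | add P Q _ _ hP hQ => rw [map_add, map_add, LinearMap.add_apply, hP, hQ, add_smul]
  | mul P Q _ _ hP hQ =>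
    rw [map_mul, map_mul, Module.End.mul_apply, hQ, map_zsmul, hP, smul_smul, mul_comm]

theorem int_eq_zero_of_forall_pow_dvd {p : ℕ} (hp : 2 ≤ p) {c : ℤ}
    (h : ∀ k : ℕ, ((p ^ (k + 1) : ℕ) : ℤ) ∣ c) : c = 0 := by
  by_contra hc
  have h1 := Int.natAbs_dvd_natAbs.2 (h c.natAbs)
  rw [Int.natAbs_natCast] at h1
  have h2 := Nat.le_of_dvd (Int.natAbs_pos.2 hc) h1
  have h3 : c.natAbs + 1 < p ^ (c.natAbs + 1) := Nat.lt_pow_self hp
  omega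

/-- the polynomial relations of the Hecke algebra hold for the `a_r(W)`. -/
theorem aeval_eq_zero_of_modStmt {W : WeierstrassCurve ℤ} {p L : ℕ} [NeZero L] (hp : p.Prime)
    {T : Finset ℕ} (hLT : ∀ ℓ : ℕ, ℓ.Prime → ℓ ∣ L → ℓ ∈ T) (h : ModStmt W p L T)
    (t₀ : MvPolynomial ℕ ℤ) (ht₀ : MvPolynomial.aeval (heckeT L (↑T : Set ℕ)) t₀ = 0) :
    MvPolynomial.aeval (cutS (↑T : Set ℕ) fun r => W.apOfModel r) t₀ = 0 := by
  refine int_eq_zero_of_forall_pow_dvd hp.two_le fun k => ?_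
  obtain ⟨x, hx1, hx2, hx3⟩ := h k t₀.vars
  obtain ⟨f, hf⟩ := exists_polyJ L (↑T : Set ℕ)
  have hS : ∀ ℓ : ℕ, ℓ.Prime → ℓ ∉ (↑T : Set ℕ) → ¬ ℓ ∣ L := fun ℓ hℓ hℓT hd =>
    hℓT (Finset.mem_coe.2 (hLT ℓ hℓ hd))
  have h0 : f t₀ x = 0 :=
    poly_kills_torsion (↑T : Set ℕ) hS f hf t₀ ht₀ (p ^ (k + 1)) (pow_pos hp.pos _) x hx1
  have h1 := poly_eigen_supported f (cutS (↑T : Set ℕ) fun r => W.apOfModel r) (↑t₀.vars : Set ℕ) x
    (fun ℓ hℓ => by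
      rw [hf]
      by_cases hg : ℓ.Prime ∧ ℓ ∉ (↑T : Set ℕ)
      · rw [TJ_of_good hg.1 hg.2, cutS_of_good hg.1 hg.2]
        exact hx3 ⟨ℓ, hg.1⟩ (Finset.mem_coe.1 hℓ) fun h' => hg.2 (Finset.mem_coe.2 h')
      · rw [TJ_of_bad hg, cutS_of_bad hg, LinearMap.zero_apply]
        exact (zero_zsmul x).symm)
    t₀ (MvPolynomial.mem_supported_vars t₀)
  rw [h0] at h1
  have hord : addOrderOf x = p ^ (k + 1) :=
    haveI : Fact p.Prime := ⟨hp⟩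
    addOrderOf_eq_prime_pow hx2 hx1
  rw [← hord]
  exact addOrderOf_dvd_iff_zsmul_eq_zero.2 h1.symm

/-- `r ↦ a_r(W)` is the system of eigenvalues of a normalised eigenform of level `L`. -/
theorem exists_eigenform_of_modStmt {W : WeierstrassCurve ℤ} {p L : ℕ} [NeZero L] (hp : p.Prime)
    {T : Finset ℕ} (hLT : ∀ ℓ : ℕ, ℓ.Prime → ℓ ∣ L → ℓ ∈ T) (h : ModStmt W p L T) :
    ∃ f : CuspForm (Gamma0 L) 2, f.IsNormalizedEigenform ∧
      ∀ ℓ : ℕ, ℓ.Prime → ℓ ∉ T → qCoeff f ℓ = (W.apOfModel ℓ : ℂ) := by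
  classical
  let ε : MvPolynomial ℕ ℤ →+* CuspForm.heckeAlgebra L 2 (↑T : Set ℕ) :=
    (MvPolynomial.aeval (heckeT L (↑T : Set ℕ)) :
      MvPolynomial ℕ ℤ →ₐ[ℤ] CuspForm.heckeAlgebra L 2 (↑T : Set ℕ)).toRingHom
  let Θ : MvPolynomial ℕ ℤ →+* ℂ := (Int.castRingHom ℂ).comp
    (MvPolynomial.aeval (cutS (↑T : Set ℕ) fun r => W.apOfModel r) :
      MvPolynomial ℕ ℤ →ₐ[ℤ] ℤ).toRingHom
  have hε : Function.Surjective ε :=
    aeval_heckeT_surjective (↑T : Set ℕ) fun ℓ hℓ hd => Finset.mem_coe.2 (hLT ℓ hℓ hd)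
  have hker : RingHom.ker ε ≤ RingHom.ker Θ := fun t ht => by
    rw [RingHom.mem_ker]
    show ((MvPolynomial.aeval (cutS (↑T : Set ℕ) fun r => W.apOfModel r) t : ℤ) : ℂ) = 0
    rw [aeval_eq_zero_of_modStmt hp hLT h t ht, Int.cast_zero]
  let χ : CuspForm.heckeAlgebra L 2 (↑T : Set ℕ) →+* ℂ := ε.liftOfSurjective hε ⟨Θ, hker⟩
  have hχ : ∀ t, χ (ε t) = Θ t := fun t =>
    ε.liftOfRightInverse_comp_apply _ (Function.rightInverse_surjInv hε) ⟨Θ, hker⟩ t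
  obtain ⟨f, hf, hfχ⟩ := exists_eigenform_of_ringHom' (↑T : Set ℕ) χ
  refine ⟨f, hf, fun ℓ hℓ hℓT => ?_⟩
  have hℓT' : ℓ ∉ (↑T : Set ℕ) := fun h' => hℓT (Finset.mem_coe.1 h')
  have hℓL : ¬ ℓ ∣ L := fun hd => hℓT (hLT ℓ hℓ hd)
  have h1 : ε (MvPolynomial.X ℓ) = CuspForm.heckeAlgebra.T hℓ hℓL hℓT' :=
    (MvPolynomial.aeval_X _ ℓ).trans (heckeT_eq hℓ hℓL hℓT')
  have h2 : Θ (MvPolynomial.X ℓ) = (W.apOfModel ℓ : ℂ) := by
    show ((MvPolynomial.aeval (cutS (↑T : Set ℕ) fun r => W.apOfModel r)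
      (MvPolynomial.X ℓ : MvPolynomial ℕ ℤ) : ℤ) : ℂ) = _
    rw [MvPolynomial.aeval_X, cutS_of_good hℓ hℓT']
  rw [hfχ ℓ hℓ hℓL hℓT', ← h1, hχ, h2]

/-- `W` is modular of level `L`. -/
theorem isModularModelOfLevel_of_modStmt {W : WeierstrassCurve ℤ} (hΔ : W.Δ ≠ 0) {p L : ℕ}
    [NeZero L] (hp : p.Prime) {T : Finset ℕ} (hLT : ∀ ℓ : ℕ, ℓ.Prime → ℓ ∣ L → ℓ ∈ T)
    (h : ModStmt W p L T) : W.IsModularModelOfLevel L := by
  obtain ⟨f, hf, hfa⟩ := exists_eigenform_of_modStmt hp hLT h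
  exact ⟨f, hf, fun ℓ hℓ hgood hℓL =>
    Fermat.Agent.S58.qCoeff_eq_apOfModel W hΔ hf T hfa hℓ hgood hℓL⟩

/-- the conclusion of S59 from modularity at a cube-free level. -/
theorem mlc1_of_isModularModelOfLevel {W : WeierstrassCurve ℤ} (hΔ : W.Δ ≠ 0)
    (hss : W.IsSemistableModel) {p : ℕ} (hp : p.Prime) (hp2 : p ≠ 2)
    (hirr : W.ModRepIsIrreducible p) {L : ℕ}
    (hbad : ∀ ℓ : ℕ, ℓ.Prime → (ℓ : ℤ) ∣ W.Δ → ℓ ∣ L) (h3 : ∀ q : ℕ, q.Prime → ¬ q ^ 3 ∣ L)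
    (hpL : ¬ p ^ 2 ∣ L) (h : W.IsModularModelOfLevel L) :
    Mlc1IsModularModelOfExactConductorLevel W :=
  haveI : Fact p.Prime := ⟨hp⟩
  ⟨W.conductorLevel, W.conductorLevel_pos, W.squarefree_conductorLevel,
    fun _ hq => W.prime_dvd_conductorLevel_iff hΔ hq,
    Fermat.Agent.S58.result W hss L p hp2 hirr hpL h hbad h3⟩

/-- **(TOP)** -/
theorem top59 {W : WeierstrassCurve ℤ} (hΔ : W.Δ ≠ 0) (hss : W.IsSemistableModel) {p : ℕ}
    (hp : p.Prime) (hp2 : p ≠ 2) (hirr : W.ModRepIsIrreducible p) {L : ℕ} [NeZero L]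
    {T : Finset ℕ} (hLT : ∀ ℓ : ℕ, ℓ.Prime → ℓ ∣ L → ℓ ∈ T)
    (hbad : ∀ ℓ : ℕ, ℓ.Prime → (ℓ : ℤ) ∣ W.Δ → ℓ ∣ L) (h3 : ∀ q : ℕ, q.Prime → ¬ q ^ 3 ∣ L)
    (hpL : ¬ p ^ 2 ∣ L) (h : ModStmt W p L T) : Mlc1IsModularModelOfExactConductorLevel W :=
  mlc1_of_isModularModelOfLevel hΔ hss hp hp2 hirr hbad h3 hpL
    (isModularModelOfLevel_of_modStmt hΔ hp hLT h)

end Fermat.Agent.ML
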