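import Fermat.Statements.S59
import Fermat.Agent.ML.Main.Asm2

/-!
# ML / Top / S59Cand : the statement of S59 from the contracts of layer 1

`result_of` has VERBATIM the statement of the template of S59, after the two hypotheses `BaseStmt`, `LiftStmt`
(resp. the three hypotheses `LowerStmt`, `Type2Stmt`, `LiftStmt`).   `Fermat/Agent/S59.lean` will be
`result := result_of' lower type2 lift` as soon as the three theorems exist.
-/

set_option autoImplicit false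
open scoped WeierstrassCurve.Affine
open WeierstrassCurve

namespace Fermat.Agent.ML

theorem result_of (hB : BaseStmt) (hL : LiftStmt) (p : ℕ) (hp : p = 3 ∨ p = 5)
    (W : WeierstrassCurve ℤ) (hΔ : W.Δ ≠ 0) (hW : W.IsSemistableModel) (hirr : W.ModRepIsIrreducible p)
    (M₀ : ℕ) [NeZero M₀] (hres₀ : W.IsResiduallyModularOfLevel p M₀)
    (hM₀ : ¬ p ^ 2 ∣ M₀)
    (hM₀3 : ∀ q : ℕ, q.Prime → q ≠ p → ¬ q ^ 3 ∣ M₀) :
    Mlc1IsModularModelOfExactConductorLevel W :=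
  s59_of_base_lift hB hL p hp W hΔ hW hirr M₀ hres₀ hM₀ hM₀3

theorem result_of' (hLow : LowerStmt) (h2 : Type2Stmt) (hL : LiftStmt) (p : ℕ) (hp : p = 3 ∨ p = 5)
    (W : WeierstrassCurve ℤ) (hΔ : W.Δ ≠ 0) (hW : W.IsSemistableModel) (hirr : W.ModRepIsIrreducible p)
    (M₀ : ℕ) [NeZero M₀] (hres₀ : W.IsResiduallyModularOfLevel p M₀)
    (hM₀ : ¬ p ^ 2 ∣ M₀)
    (hM₀3 : ∀ q : ℕ, q.Prime → q ≠ p → ¬ q ^ 3 ∣ M₀) :
    Mlc1IsModularModelOfExactConductorLevel W :=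
  result_of (base_of_lower_type2 hLow h2) hL p hp W hΔ hW hirr M₀ hres₀ hM₀ hM₀3

theorem result_of'' (hA : SqAll) (hB : GenBAll) (h2 : Type2Stmt) (hL : LiftStmt) (p : ℕ)
    (hp : p = 3 ∨ p = 5)
    (W : WeierstrassCurve ℤ) (hΔ : W.Δ ≠ 0) (hW : W.IsSemistableModel) (hirr : W.ModRepIsIrreducible p)
    (M₀ : ℕ) [NeZero M₀] (hres₀ : W.IsResiduallyModularOfLevel p M₀)
    (hM₀ : ¬ p ^ 2 ∣ M₀)
    (hM₀3 : ∀ q : ℕ, q.Prime → q ≠ p → ¬ q ^ 3 ∣ M₀) :
    Mlc1IsModularModelOfExactConductorLevel W :=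
  result_of' (lowerStmt_of hA hB) h2 hL p hp W hΔ hW hirr M₀ hres₀ hM₀ hM₀3

end Fermat.Agent.ML
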