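import Fermat.Agent.ML.Top.S59Cand
import Fermat.Agent.ML.Main.CellAsm
import Fermat.Agent.ML.Main.ESign
import Fermat.Agent.ML.At2.Lower2
import Fermat.Agent.ML.Low.Gr0.All

/-!
# ML / Top / S59Fin : the statement of S59 from the LEAVES which are still missing

`result_fin` has VERBATIM the statement of the template of S59 after the six hypotheses

* `Low.NodesStmt`  (LOWER (A), [NODES]),
* `GenBAll`        (LOWER (B), (GEN)),
* `At2.KeyNRStmt`  (AT-2),
* `LowerStmt → BaseCellStmt`, `LowerStmt → StepCellStmt`, `FinCellStmt`  (layer 2b, cells).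
-/

set_option autoImplicit false
open scoped WeierstrassCurve.Affine
open WeierstrassCurve

namespace Fermat.Agent.ML

theorem sqAll_of_nodes (HN : Low.NodesStmt) : SqAll :=
  fun _ _ _ _ _ _ C => Low.sq_of_nodes C HN

theorem result_fin (HN : Low.NodesStmt) (hB : GenBAll) (hKey : At2.KeyNRStmt)
    (hBase : LowerStmt → BaseCellStmt) (hStep : LowerStmt → StepCellStmt) (hFin : FinCellStmt)
    (p : ℕ) (hp : p = 3 ∨ p = 5)
    (W : WeierstrassCurve ℤ) (hΔ : W.Δ ≠ 0) (hW : W.IsSemistableModel) (hirr : W.ModRepIsIrreducible p)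
    (M₀ : ℕ) [NeZero M₀] (hres₀ : W.IsResiduallyModularOfLevel p M₀)
    (hM₀ : ¬ p ^ 2 ∣ M₀)
    (hM₀3 : ∀ q : ℕ, q.Prime → q ≠ p → ¬ q ^ 3 ∣ M₀) :
    Mlc1IsModularModelOfExactConductorLevel W :=
  have hLow : LowerStmt := lowerStmt_of (sqAll_of_nodes HN) hB
  result_of' hLow (At2.type2Stmt_of_key hKey)
    (lift_of_cells eSignStmt (hBase hLow) (hStep hLow) hFin) p hp W hΔ hW hirr M₀ hres₀ hM₀ hM₀3

end Fermat.Agent.ML
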