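import Fermat.Agent.ML.Top.Leaves
import Fermat.Agent.ML.Lift.Base.PullMain
import Fermat.Agent.ML.Main.Fin.Done

/-!
# ML / Top / Steps : the statement of S59 from the FOUR step contracts

`BaseCellStmt` and `FinCellStmt` are theorems;  `result_of_steps` has VERBATIM the statement of the template of S59 after
`StepTwoStmt`, `StepSoftStmt`, `StepHardStmt`, `StepPStmt`.
-/

set_option autoImplicit false
open scoped WeierstrassCurve.Affine
open WeierstrassCurve

namespace Fermat.Agent.ML

/-- **(C-BASE)** is a theorem. -/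
theorem baseCellStmt : BaseCellStmt := Lift.Base.baseCellStmt_pull lowerStmt

/-- the statement of S59 from the four step contracts. -/
theorem result_of_steps (h2 : StepTwoStmt) (hS : StepSoftStmt) (hH : StepHardStmt)
    (hP : StepPStmt)
    (p : ℕ) (hp : p = 3 ∨ p = 5)
    (W : WeierstrassCurve ℤ) (hΔ : W.Δ ≠ 0) (hW : W.IsSemistableModel) (hirr : W.ModRepIsIrreducible p)
    (M₀ : ℕ) [NeZero M₀] (hres₀ : W.IsResiduallyModularOfLevel p M₀)
    (hM₀ : ¬ p ^ 2 ∣ M₀)
    (hM₀3 : ∀ q : ℕ, q.Prime → q ≠ p → ¬ q ^ 3 ∣ M₀) :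
    Mlc1IsModularModelOfExactConductorLevel W :=
  result_of_cells baseCellStmt h2 hS hH hP finCellStmt p hp W hΔ hW hirr M₀ hres₀ hM₀ hM₀3

end Fermat.Agent.ML
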